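import Mathlib
import Fermat.Agent.S23.Defs

/-!
# S16 / COS / Inj (leaf; statements FROZEN by helper7): the cosets `Γ₀(p) S T^j` are distinct

`Γ₀(p) = CongruenceSubgroup.Gamma0 p` (`CongruenceSubgroup.Gamma0_mem : A ∈ Gamma0 N ↔ ((A 1 0 : ℤ) : ZMod N) = 0`),
`S = ModularGroup.S = [0, -1; 1, 0]`, `T = ModularGroup.T = [1, 1; 0, 1]`
(`ModularGroup.coe_S`, `ModularGroup.coe_T`, `ModularGroup.coe_T_zpow`; for natural powers use
`zpow_natCast` or an induction on `j`: `T^j = [1, j; 0, 1]`).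
* `S_T_pow_not_mem`: the lower-left entry of `S T^j` is `1`, and `(1 : ZMod p) ≠ 0` for `p` prime.
* `S_T_pow_inj`: `(S T^i)(S T^j)⁻¹ = S T^i T^(-j) S⁻¹ = [1, 0; j - i, 1]` (check the sign by computing!),
  so membership in `Γ₀(p)` means `p ∣ i - j` (`ZMod.intCast_zmod_eq_zero_iff_dvd`,
  `(ZMod.intCast_cast ..)`), hence `i = j` for `i, j < p` (`omega` after `Int.emod_emod_of_dvd`-style
  reasoning, or `Nat.ModEq` + `Nat.mod_eq_of_lt`).
Auxiliary lemmas: prefix `COS.Inj.aux_`.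
-/

set_option autoImplicit false

open UpperHalfPlane ModularForm CongruenceSubgroup
open scoped MatrixGroups ModularForm

namespace Fermat.Agent.S16

/-- The matrix of `S T^j` is `[0, -1; 1, j]`. -/
theorem COS.Inj.aux_coe_S_mul_T_pow (j : ℕ) :
    ((ModularGroup.S * ModularGroup.T ^ j : SL(2, ℤ)) : Matrix (Fin 2) (Fin 2) ℤ) =
      !![0, -1; 1, (j : ℤ)] := by
  have h := ModularGroup.coe_T_zpow (j : ℤ)
  rw [zpow_natCast] at h
  rw [Matrix.SpecialLinearGroup.coe_mul, h, ModularGroup.coe_S, Matrix.mul_fin_two]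
  simp

theorem COS.Inj.S_T_pow_not_mem {p : ℕ} (hp : p.Prime) (j : ℕ) :
    ModularGroup.S * ModularGroup.T ^ j ∉ Gamma0 p := by
  have : Fact p.Prime := ⟨hp⟩
  rw [Gamma0_mem]
  have h : ((ModularGroup.S * ModularGroup.T ^ j : SL(2, ℤ)) : Matrix (Fin 2) (Fin 2) ℤ) 1 0
      = 1 := by
    rw [COS.Inj.aux_coe_S_mul_T_pow]
    rfl
  rw [h]
  simp

theorem COS.Inj.S_T_pow_inj {p : ℕ} (hp : p.Prime) {i j : ℕ} (hi : i < p) (hj : j < p)
    (h : (ModularGroup.S * ModularGroup.T ^ i) * (ModularGroup.S * ModularGroup.T ^ j)⁻¹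
      ∈ Gamma0 p) : i = j := by
  have _ := hp
  rw [Gamma0_mem] at h
  have hentry : (((ModularGroup.S * ModularGroup.T ^ i) *
      (ModularGroup.S * ModularGroup.T ^ j)⁻¹ : SL(2, ℤ)) : Matrix (Fin 2) (Fin 2) ℤ) 1 0
      = (j : ℤ) - i := by
    rw [Matrix.SpecialLinearGroup.coe_mul, Matrix.SpecialLinearGroup.coe_inv,
      COS.Inj.aux_coe_S_mul_T_pow, COS.Inj.aux_coe_S_mul_T_pow, Matrix.adjugate_fin_two_of,
      Matrix.mul_fin_two]
    simp
    ring
  rw [hentry] at h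
  have hdvd : (p : ℤ) ∣ (j : ℤ) - i := (ZMod.intCast_zmod_eq_zero_iff_dvd _ _).mp h
  have h1 : (j : ℤ) - i = 0 := by
    refine Int.eq_zero_of_abs_lt_dvd hdvd ?_
    rw [abs_lt]
    constructor <;> omega
  omega

end Fermat.Agent.S16
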