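import Mathlib
import Fermat.Agent.S23.Conj
import Fermat.Agent.S20.Basics
import Fermat.Agent.S16.NS.Index
import Fermat.Agent.S16.COS.Inj

/-!
# S16 / COS / Trace (ALT copy for an independent second prover; leaf; statements FROZEN by helper7): the explicit trace to level one

For `F ∈ M_k(Γ₀(p))`: `Tr F = F + Σ_{j<p} F ∣ S T^j`, and `Tr F = 0` in weight `2`.

Proof of `trace_eq`.  `Fermat.Agent.S23.trace_apply : ModularForm.trace 𝒮ℒ g z = ∑ i : Fin (psi N), cj g i z`.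
Let `φ : Option (Fin p) → Fin (psi p)`, `φ none = i0 p`, `φ (some j) = perm p (S * T ^ (j : ℕ)) (i0 p)`
(`Fermat.Agent.S20.perm`, `Fermat.Agent.S23.i0`).  Then `cj F (φ none) = F` (`Fermat.Agent.S23.cj_i0`) and
`cj F (φ (some j)) = F ∣[k] (S * T ^ j)` (`Fermat.Agent.S20.cj_eq_slash`).
`φ` is injective: `perm γ i0 = perm γ' i0` ⇒ `perm (γ * γ'⁻¹) i0 = i0` (`Fermat.Agent.S20.perm_mul`:
`perm (γ₁ * γ₂) = perm γ₂ * perm γ₁`, `perm_one`) ⇒ `γ * γ'⁻¹ ∈ Γ₀(p)` (`Fermat.Agent.S20.perm_i0_iff`);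
now use `COS.Inj.S_T_pow_inj`, `COS.Inj.S_T_pow_not_mem` (for `none` vs `some j`: `perm γ i0 = i0 ↔ γ ∈ Γ₀`).
Cardinalities agree (`Fermat.Agent.S16.psi_prime hp : psi p = p + 1` from `NS/Index.lean`; `psi p = p + 1 = Fintype.card (Option (Fin p))`), so `φ` is
bijective (`Fintype.bijective_iff_injective_and_card`); reindex the sum (`Fintype.sum_bijective` /
`Equiv.ofBijective`, `Fintype.sum_option`, `Fin.sum_univ_eq_sum_range`).
`trace_weight_two`: `Module.rank ℂ (ModularForm 𝒮ℒ 2) = 0` (Mathlib `levelOne_weight_two_rank_zero`,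
`Mathlib/NumberTheory/ModularForms/LevelOne/DimensionFormula.lean`), so every level-one form of weight 2
is `0` (`rank_zero_iff_forall_zero`).
The instance `NeZero p` needed by S20/S23 is `⟨hp.ne_zero⟩` (`haveI`).
Auxiliary lemmas: prefix `COS.TraceAlt.aux_`.
-/

set_option autoImplicit false

open UpperHalfPlane ModularForm CongruenceSubgroup
open scoped MatrixGroups ModularForm

namespace Fermat.Agent.S16

open Fermat.Agent.S23 (Gam psi)

/-- Two cosets `Γ₀(N) γ`, `Γ₀(N) γ'` with the same index agree. -/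
theorem COS.TraceAlt.aux_mem_of_perm_eq {N : ℕ} [NeZero N] {γ γ' : SL(2, ℤ)}
    (h : Fermat.Agent.S20.perm N γ (Fermat.Agent.S23.i0 N) =
      Fermat.Agent.S20.perm N γ' (Fermat.Agent.S23.i0 N)) :
    γ * γ'⁻¹ ∈ Gamma0 N := by
  rw [← Fermat.Agent.S20.perm_i0_iff, Fermat.Agent.S20.perm_mul, Equiv.Perm.mul_apply, h,
    ← Equiv.Perm.mul_apply, ← Fermat.Agent.S20.perm_mul, mul_inv_cancel,
    Fermat.Agent.S20.perm_one]
  rfl

/-- The enumeration `none ↦ Γ₀(p)`, `some j ↦ Γ₀(p) S T^j` of the cosets. -/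
noncomputable def COS.TraceAlt.aux_phi (p : ℕ) [NeZero p] : Option (Fin p) → Fin (psi p)
  | none => Fermat.Agent.S23.i0 p
  | some j => Fermat.Agent.S20.perm p (ModularGroup.S * ModularGroup.T ^ (j : ℕ))
      (Fermat.Agent.S23.i0 p)

theorem COS.TraceAlt.aux_phi_injective {p : ℕ} [NeZero p] (hp : p.Prime) :
    Function.Injective (COS.TraceAlt.aux_phi p) := by
  intro a b hab
  cases a with
  | none =>
    cases b with
    | none => rfl
    | some j =>
      exfalso
      have h1 : Fermat.Agent.S20.perm p (ModularGroup.S * ModularGroup.T ^ (j : ℕ))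
          (Fermat.Agent.S23.i0 p) = Fermat.Agent.S23.i0 p := hab.symm
      exact COS.Inj.S_T_pow_not_mem hp (j : ℕ) ((Fermat.Agent.S20.perm_i0_iff _).mp h1)
  | some i =>
    cases b with
    | none =>
      exfalso
      have h1 : Fermat.Agent.S20.perm p (ModularGroup.S * ModularGroup.T ^ (i : ℕ))
          (Fermat.Agent.S23.i0 p) = Fermat.Agent.S23.i0 p := hab
      exact COS.Inj.S_T_pow_not_mem hp (i : ℕ) ((Fermat.Agent.S20.perm_i0_iff _).mp h1)
    | some j =>
      have h1 : Fermat.Agent.S20.perm p (ModularGroup.S * ModularGroup.T ^ (i : ℕ))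
          (Fermat.Agent.S23.i0 p) =
          Fermat.Agent.S20.perm p (ModularGroup.S * ModularGroup.T ^ (j : ℕ))
          (Fermat.Agent.S23.i0 p) := hab
      have h2 := COS.Inj.S_T_pow_inj hp i.2 j.2 (COS.TraceAlt.aux_mem_of_perm_eq h1)
      exact congrArg some (Fin.ext h2)

theorem COS.TraceAlt.aux_phi_bijective {p : ℕ} [NeZero p] (hp : p.Prime) :
    Function.Bijective (COS.TraceAlt.aux_phi p) := by
  refine (Fintype.bijective_iff_injective_and_card _).mpr
    ⟨COS.TraceAlt.aux_phi_injective hp, ?_⟩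
  rw [Fintype.card_option, Fintype.card_fin, Fintype.card_fin, Fermat.Agent.S16.psi_prime hp]

theorem COS.TraceAlt.trace_eq {p : ℕ} [NeZero p] (hp : p.Prime) {k : ℤ} (F : ModularForm (Gam p) k)
    (z : ℍ) :
    ModularForm.trace 𝒮ℒ F z = F z + ∑ j ∈ Finset.range p,
      ((⇑F) ∣[k] (ModularGroup.S * ModularGroup.T ^ j)) z := by
  rw [Fermat.Agent.S23.trace_apply,
    ← Fintype.sum_bijective (COS.TraceAlt.aux_phi p) (COS.TraceAlt.aux_phi_bijective hp)
      (fun o => Fermat.Agent.S23.cj F (COS.TraceAlt.aux_phi p o) z)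
      (fun i => Fermat.Agent.S23.cj F i z) (fun _ => rfl),
    Fintype.sum_option]
  congr 1
  · show Fermat.Agent.S23.cj F (Fermat.Agent.S23.i0 p) z = F z
    rw [Fermat.Agent.S23.cj_i0]
  · rw [← Fin.sum_univ_eq_sum_range
      (fun j => ((⇑F) ∣[k] (ModularGroup.S * ModularGroup.T ^ j)) z) p]
    refine Finset.sum_congr rfl (fun j _ => ?_)
    show Fermat.Agent.S23.cj F (Fermat.Agent.S20.perm p
      (ModularGroup.S * ModularGroup.T ^ (j : ℕ)) (Fermat.Agent.S23.i0 p)) z = _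
    rw [Fermat.Agent.S20.cj_eq_slash]

theorem COS.TraceAlt.exists_trace {p : ℕ} (hp : p.Prime) {k : ℤ} (F : ModularForm (Gam p) k) :
    ∃ e : ModularForm 𝒮ℒ k, ∀ z : ℍ,
      e z = F z + ∑ j ∈ Finset.range p,
        ((⇑F) ∣[k] (ModularGroup.S * ModularGroup.T ^ j)) z := by
  haveI : NeZero p := ⟨hp.ne_zero⟩
  exact ⟨ModularForm.trace 𝒮ℒ F, fun z => COS.TraceAlt.trace_eq hp F z⟩

theorem COS.TraceAlt.trace_weight_two {p : ℕ} (hp : p.Prime) (F : ModularForm (Gam p) 2) (z : ℍ) :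
    F z + ∑ j ∈ Finset.range p,
      ((⇑F) ∣[(2 : ℤ)] (ModularGroup.S * ModularGroup.T ^ j)) z = 0 := by
  have : NeZero p := ⟨hp.ne_zero⟩
  rw [← COS.TraceAlt.trace_eq hp F z]
  have h0 : ModularForm.trace 𝒮ℒ F = 0 :=
    (rank_zero_iff_forall_zero.mp ModularForm.levelOne_weight_two_rank_zero) _
  rw [h0]
  rfl

end Fermat.Agent.S16
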