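import Mathlib
import Fermat.Agent.S23.Conj
import Fermat.Agent.S20.Basics
import Fermat.Agent.S16.NS.Index
import Fermat.Agent.S16.COS.Inj
import Fermat.Agent.S16.COS.TraceAlt

/-!
# S16 / COS / Trace (leaf; statements FROZEN by helper7): the explicit trace to level one

For `F ∈ M_k(Γ₀(p))`: `Tr F = F + Σ_{j<p} F ∣ S T^j`, and `Tr F = 0` in weight `2`.

Proof of `trace_eq`.  `Fermat.Agent.S23.trace_apply : ModularForm.trace 𝒮ℒ g z = ∑ i : Fin (psi N), cj g i z`.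
Let `φ : Option (Fin p) → Fin (psi p)`, `φ none = i0 p`, `φ (some j) = perm p (S * T ^ (j : ℕ)) (i0 p)`
(`Fermat.Agent.S20.perm`, `Fermat.Agent.S23.i0`).  Then `cj F (φ none) = F` (`Fermat.Agent.S23.cj_i0`) and
`cj F (φ (some j)) = F ∣[k] (S * T ^ j)` (`Fermat.Agent.S20.cj_eq_slash`).
`φ` is injective: `perm γ i0 = perm γ' i0` ⇒ `perm (γ * γ'⁻¹) i0 = i0` (`Fermat.Agent.S20.perm_mul`:
`perm (γ₁ * γ₂) = perm γ₂ * perm γ₁`, `perm_one`) ⇒ `γ * γ'⁻¹ ∈ Γ₀(p)` (`Fermat.Agent.S20.perm_i0_iff`);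
now use `COS.Inj.S_T_pow_inj`, `COS.Inj.S_T_pow_not_mem` (for `none` vs `some j`: `perm γ i0 = i0 ↔ γ ∈ Γ₀`).
Cardinalities agree (`Fermat.Agent.S16.psi_prime hp : psi p = p + 1` from `NS/Index.lean`; `psi p = p + 1 = Fintype.card (Option (Fin p))`), so `φ` is
bijective (`Fintype.bijective_iff_injective_and_card`); reindex the sum (`Fintype.sum_bijective` /
`Equiv.ofBijective`, `Fintype.sum_option`, `Fin.sum_univ_eq_sum_range`).
`trace_weight_two`: `Module.rank ℂ (ModularForm 𝒮ℒ 2) = 0` (Mathlib `levelOne_weight_two_rank_zero`,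
`Mathlib/NumberTheory/ModularForms/LevelOne/DimensionFormula.lean`), so every level-one form of weight 2
is `0` (`rank_zero_iff_forall_zero`).
The instance `NeZero p` needed by S20/S23 is `⟨hp.ne_zero⟩` (`haveI`).
Auxiliary lemmas: prefix `COS.Trace.aux_`.
-/

set_option autoImplicit false

open UpperHalfPlane ModularForm CongruenceSubgroup
open scoped MatrixGroups ModularForm

namespace Fermat.Agent.S16

open Fermat.Agent.S23 (Gam psi)

theorem COS.Trace.trace_eq {p : ℕ} [NeZero p] (hp : p.Prime) {k : ℤ} (F : ModularForm (Gam p) k)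
    (z : ℍ) :
    ModularForm.trace 𝒮ℒ F z = F z + ∑ j ∈ Finset.range p,
      ((⇑F) ∣[k] (ModularGroup.S * ModularGroup.T ^ j)) z :=
  COS.TraceAlt.trace_eq hp F z

theorem COS.Trace.exists_trace {p : ℕ} (hp : p.Prime) {k : ℤ} (F : ModularForm (Gam p) k) :
    ∃ e : ModularForm 𝒮ℒ k, ∀ z : ℍ,
      e z = F z + ∑ j ∈ Finset.range p,
        ((⇑F) ∣[k] (ModularGroup.S * ModularGroup.T ^ j)) z := by
  haveI : NeZero p := ⟨hp.ne_zero⟩
  exact ⟨ModularForm.trace 𝒮ℒ F, fun z => COS.Trace.trace_eq hp F z⟩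

theorem COS.Trace.trace_weight_two {p : ℕ} (hp : p.Prime) (F : ModularForm (Gam p) 2) (z : ℍ) :
    F z + ∑ j ∈ Finset.range p,
      ((⇑F) ∣[(2 : ℤ)] (ModularGroup.S * ModularGroup.T ^ j)) z = 0 :=
  COS.TraceAlt.trace_weight_two hp F z

end Fermat.Agent.S16
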