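import Mathlib
import Fermat.Agent.S23.Defs

/-!
# S16 / COS / Decomp (leaf; statements FROZEN by helper7): coset representatives `S T^j`

`Γ₀(p) = CongruenceSubgroup.Gamma0 p` (`CongruenceSubgroup.Gamma0_mem : A ∈ Gamma0 N ↔ ((A 1 0 : ℤ) : ZMod N) = 0`),
`S = ModularGroup.S = [0, -1; 1, 0]`, `T = ModularGroup.T = [1, 1; 0, 1]`
(`ModularGroup.coe_S`, `ModularGroup.coe_T`, `ModularGroup.coe_T_zpow`).
For `γ = [a, b; c, d]`:  `γ (S T^j)⁻¹ = [aj - b, a; cj - d, c]`, lower-left entry `c j - d`.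
* `exists_decomp`: `p ∤ c` ⇒ choose `j < p` with `c j ≡ d mod p` (e.g. `j = ((d : ZMod p) * (c : ZMod p)⁻¹).val`,
  `ZMod p` is a field for `p` prime: `Fact p.Prime`), `γ₀ := γ (S T^j)⁻¹ ∈ Γ₀(p)`.
* `slash_eq_of_dvd`: `γ ∈ Γ₀(N)`, so `F ∣[k] γ = F` (`SlashInvariantFormClass.slash_action_eq F _ ⟨γ, hγ, rfl⟩`,
  `ModularForm.SL_slash`; `Gam N = Subgroup.map (mapGL ℝ) (Gamma0 N)`).
* `slash_eq_of_not_dvd`: from the two previous ones and `SlashAction.slash_mul`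
  (`F ∣ (γ₀ * S * T^j) = (F ∣ γ₀) ∣ (S * T^j)`; careful with `mul_assoc` and the coercion
  `SL(2,ℤ) → GL (Fin 2) ℝ`, which is the monoid hom `Matrix.SpecialLinearGroup.mapGL ℝ`).
Auxiliary lemmas: prefix `COS.Decomp.aux_`.
-/

set_option autoImplicit false

open UpperHalfPlane ModularForm CongruenceSubgroup
open scoped MatrixGroups ModularForm

namespace Fermat.Agent.S16

open Fermat.Agent.S23 (Gam psi)

theorem COS.Decomp.slash_eq_of_dvd {N : ℕ} {k : ℤ} (F : ModularForm (Gam N) k) (γ : SL(2, ℤ))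
    (h : (N : ℤ) ∣ γ 1 0) : (⇑F) ∣[k] γ = ⇑F := by
  have hγ : γ ∈ Gamma0 N := by
    rw [Gamma0_mem]
    exact (ZMod.intCast_zmod_eq_zero_iff_dvd _ _).mpr h
  rw [ModularForm.SL_slash]
  exact SlashInvariantFormClass.slash_action_eq F _ ⟨γ, hγ, rfl⟩

/-- The lower-left entry of `γ (S T^j)⁻¹` is `c j - d`. -/
theorem COS.Decomp.aux_entry (γ : SL(2, ℤ)) (j : ℕ) :
    (γ * (ModularGroup.S * ModularGroup.T ^ j)⁻¹) 1 0 = γ 1 0 * (j : ℤ) - γ 1 1 := by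
  have hT : ((ModularGroup.T ^ j : SL(2, ℤ)) : Matrix (Fin 2) (Fin 2) ℤ) =
      !![1, (j : ℤ); 0, 1] := by
    have := ModularGroup.coe_T_zpow (j : ℤ)
    rwa [zpow_natCast] at this
  simp only [Matrix.SpecialLinearGroup.coe_mul, Matrix.SpecialLinearGroup.coe_inv,
    ModularGroup.coe_S, hT, Matrix.adjugate_fin_two, Matrix.mul_apply, Fin.sum_univ_two]
  simp
  ring

theorem COS.Decomp.exists_decomp {p : ℕ} (hp : p.Prime) (γ : SL(2, ℤ)) (h : ¬ (p : ℤ) ∣ γ 1 0) :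
    ∃ γ₀ ∈ Gamma0 p, ∃ j : ℕ, j < p ∧ γ = γ₀ * ModularGroup.S * ModularGroup.T ^ j := by
  have : Fact p.Prime := ⟨hp⟩
  have hc : ((γ 1 0 : ℤ) : ZMod p) ≠ 0 := fun h0 =>
    h ((ZMod.intCast_zmod_eq_zero_iff_dvd _ _).mp h0)
  set j : ℕ := (((γ 1 1 : ℤ) : ZMod p) * ((γ 1 0 : ℤ) : ZMod p)⁻¹).val with hj
  refine ⟨γ * (ModularGroup.S * ModularGroup.T ^ j)⁻¹, ?_, j, ZMod.val_lt _, ?_⟩
  · rw [Gamma0_mem, COS.Decomp.aux_entry]
    push_cast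
    rw [hj, ZMod.natCast_zmod_val, mul_comm ((γ 1 1 : ℤ) : ZMod p), ← mul_assoc,
      mul_inv_cancel₀ hc, one_mul, sub_self]
  · rw [mul_assoc, inv_mul_cancel_right]

theorem COS.Decomp.slash_eq_of_not_dvd {p : ℕ} (hp : p.Prime) {k : ℤ} (F : ModularForm (Gam p) k)
    (γ : SL(2, ℤ)) (h : ¬ (p : ℤ) ∣ γ 1 0) :
    ∃ j : ℕ, j < p ∧ (⇑F) ∣[k] γ = (⇑F) ∣[k] (ModularGroup.S * ModularGroup.T ^ j) := by
  obtain ⟨γ₀, hγ₀, j, hj, rfl⟩ := COS.Decomp.exists_decomp hp γ h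
  refine ⟨j, hj, ?_⟩
  have h0 : (⇑F) ∣[k] γ₀ = ⇑F := by
    rw [ModularForm.SL_slash]
    exact SlashInvariantFormClass.slash_action_eq F _ ⟨γ₀, hγ₀, rfl⟩
  rw [mul_assoc, SlashAction.slash_mul, h0]

end Fermat.Agent.S16
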