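import Mathlib
import Fermat.Agent.S23.Defs
import Fermat.Agent.S16.MF.Exp
import Fermat.Agent.S16.NS.Index
import Fermat.Agent.S16.COS.Decomp
import Fermat.Agent.S16.COS.Trace

/-!
# S16 / COS / Iface (owner helper7): cosets of `Γ₀(p)` in `SL(2,ℤ)` and the explicit trace

Statements FROZEN (bodies are filled in place by helper7's team).

* `COS.slash_eq_of_dvd`: `N ∣ c` ⇒ `F ∣ γ = F`;
* `COS.exists_decomp`: `p ∤ c` ⇒ `γ = γ₀ S T^j` with `γ₀ ∈ Γ₀(p)`, `j < p`;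
* `COS.slash_eq_of_not_dvd`: `p ∤ c` ⇒ `F ∣ γ = F ∣ S T^j` for some `j < p`;
* `COS.psi_prime`, `COS.psi_three_mul`: the index of `Γ₀(p)` is `p + 1`, of `Γ₀(3p)` is `4 (p + 1)`;
* `COS.exists_trace`: the trace `F + Σ_{j<p} F ∣ S T^j` is a level-one modular form.
-/

set_option autoImplicit false

open UpperHalfPlane ModularForm CongruenceSubgroup
open scoped MatrixGroups ModularForm

namespace Fermat.Agent.S16

open Fermat.Agent.S23 (Gam psi)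

/-- Elements of `SL(2,ℤ)` with `N ∣ c` fix a form of level `Γ₀(N)`. -/
theorem COS.slash_eq_of_dvd {N : ℕ} {k : ℤ} (F : ModularForm (Gam N) k) (γ : SL(2, ℤ))
    (h : (N : ℤ) ∣ γ 1 0) : (⇑F) ∣[k] γ = ⇑F :=
  COS.Decomp.slash_eq_of_dvd F γ h

/-- Coset decomposition: if `p ∤ c` then `γ = γ₀ S T^j` with `γ₀ ∈ Γ₀(p)` and `j < p`. -/
theorem COS.exists_decomp {p : ℕ} (hp : p.Prime) (γ : SL(2, ℤ)) (h : ¬ (p : ℤ) ∣ γ 1 0) :
    ∃ γ₀ ∈ Gamma0 p, ∃ j : ℕ, j < p ∧ γ = γ₀ * ModularGroup.S * ModularGroup.T ^ j :=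
  COS.Decomp.exists_decomp hp γ h

/-- The same with an integer exponent. -/
theorem COS.exists_decomp_int {p : ℕ} (hp : p.Prime) (γ : SL(2, ℤ)) (h : ¬ (p : ℤ) ∣ γ 1 0) :
    ∃ γ₀ ∈ Gamma0 p, ∃ j : ℤ, γ = γ₀ * ModularGroup.S * ModularGroup.T ^ j := by
  obtain ⟨γ₀, hγ₀, j, -, hj⟩ := COS.exists_decomp hp γ h
  exact ⟨γ₀, hγ₀, (j : ℤ), by rw [zpow_natCast]; exact hj⟩

/-- If `p ∤ c` then `F ∣ γ = F ∣ S T^j` for some `j < p`. -/
theorem COS.slash_eq_of_not_dvd {p : ℕ} (hp : p.Prime) {k : ℤ} (F : ModularForm (Gam p) k)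
    (γ : SL(2, ℤ)) (h : ¬ (p : ℤ) ∣ γ 1 0) :
    ∃ j : ℕ, j < p ∧ (⇑F) ∣[k] γ = (⇑F) ∣[k] (ModularGroup.S * ModularGroup.T ^ j) :=
  COS.Decomp.slash_eq_of_not_dvd hp F γ h

/-- The index of `Γ₀(p)` in `SL(2,ℤ)` is `p + 1`. -/
theorem COS.psi_prime {p : ℕ} (hp : p.Prime) : psi p = p + 1 :=
  _root_.Fermat.Agent.S16.psi_prime hp

/-- The index of `Γ₀(3p)` in `SL(2,ℤ)` is `4 (p + 1)` (`p ≠ 3` prime). -/
theorem COS.psi_three_mul {p : ℕ} (hp : p.Prime) (hp3 : p ≠ 3) : psi (3 * p) = 4 * (p + 1) :=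
  _root_.Fermat.Agent.S16.psi_three_mul_prime hp hp3

/-- The trace to level one of a form of level `Γ₀(p)` is `F + Σ_{j<p} F ∣ S T^j`. -/
theorem COS.exists_trace {p : ℕ} (hp : p.Prime) {k : ℤ} (F : ModularForm (Gam p) k) :
    ∃ e : ModularForm 𝒮ℒ k, ∀ z : ℍ,
      e z = F z + ∑ j ∈ Finset.range p,
        ((⇑F) ∣[k] (ModularGroup.S * ModularGroup.T ^ j)) z :=
  COS.Trace.exists_trace hp F

end Fermat.Agent.S16
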